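/-
Lib/FinFlat/Fontaine/Val: valuation-theoretic preliminaries for Fontaine counting (FLAT-T1).

`P` a valuation subring of a field `K`, `v = P.valuation`.  Congruences "x ≡ y mod d" are written
`v (x - y) ≤ v d`; `pdvd_iff` translates to the literal form `∃ t ∈ P, x - y = d * t`.

* cyclotomic facts for a primitive `p`-th root of unity `ζ` (`p` prime): all differences of
  distinct `p`-th roots of unity have the valuation of `1 - ζ`, `v p = v (1 - ζ) ^ (p - 1)`,
  the closest-root lemma `exists_root_near`;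
* the archimedean property of a valuation subring of `AlgebraicClosure ℚ` over `p`
  (`exists_pow_val_le`).
-/
import Mathlib

set_option autoImplicit false

namespace Fermat.Agent.Lib.FinFlat.Fontaine

open Finset

section General

variable {K : Type*} [Field K] (P : ValuationSubring K)

/-- Divisibility in `P` in terms of the valuation. -/
theorem pdvd_iff (d x : K) : (∃ t ∈ P, x = d * t) ↔ P.valuation x ≤ P.valuation d := by
  constructor
  · rintro ⟨t, ht, rfl⟩
    rw [map_mul]
    exact mul_le_of_le_one_right' ((P.valuation_le_one_iff t).mpr ht)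
  · intro h
    by_cases hd : d = 0
    · subst hd
      rw [map_zero, le_zero_iff, Valuation.zero_iff] at h
      exact ⟨0, P.zero_mem, by rw [h, mul_zero]⟩
    · refine ⟨x / d, ?_, by field_simp⟩
      rw [← P.valuation_le_one_iff, map_div₀]
      exact (div_le_one₀ (zero_lt_iff.mpr ((Valuation.ne_zero_iff _).mpr hd))).mpr h

theorem mem_iff_val_le_one (x : K) : x ∈ P ↔ P.valuation x ≤ 1 :=
  (P.valuation_le_one_iff x).symm

/-- Non-units of `P` (nonzero elements of the maximal ideal) in terms of the valuation. -/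
theorem nonunit_iff (m : K) : (m ∈ P ∧ m⁻¹ ∉ P) ↔ (m ≠ 0 ∧ P.valuation m < 1) := by
  constructor
  · rintro ⟨hm, hmi⟩
    have hm0 : m ≠ 0 := by
      rintro rfl
      rw [inv_zero] at hmi
      exact hmi P.zero_mem
    refine ⟨hm0, lt_of_le_of_ne ((P.valuation_le_one_iff m).mpr hm) ?_⟩
    intro h1
    apply hmi
    rw [← P.valuation_le_one_iff, map_inv₀, h1, inv_one]
  · rintro ⟨hm0, hlt⟩
    refine ⟨(P.valuation_le_one_iff m).mp hlt.le, ?_⟩
    intro hmi
    have h1 := (P.valuation_le_one_iff m⁻¹).mpr hmi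
    rw [map_inv₀] at h1
    have hpos : 0 < P.valuation m := zero_lt_iff.mpr ((Valuation.ne_zero_iff _).mpr hm0)
    have h2 : 1 ≤ P.valuation m := by
      have := (inv_le_one₀ hpos).mp h1
      exact this
    exact absurd hlt (not_lt.mpr h2)

theorem val_natCast_le_one (n : ℕ) : P.valuation (n : K) ≤ 1 :=
  (P.valuation_le_one_iff _).mpr (natCast_mem P n)

theorem val_intCast_le_one (n : ℤ) : P.valuation (n : K) ≤ 1 :=
  (P.valuation_le_one_iff _).mpr (intCast_mem P n)

/-- A root of unity has valuation one. -/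
theorem val_eq_one_of_pow_eq_one {μ : K} {n : ℕ} (hn : n ≠ 0) (h : μ ^ n = 1) :
    P.valuation μ = 1 := by
  have h1 : P.valuation μ ^ n = 1 := by rw [← map_pow, h, map_one]
  rcases lt_trichotomy (P.valuation μ) 1 with h2 | h2 | h2
  · exact absurd h1 (pow_lt_one' h2 hn).ne
  · exact h2
  · exact absurd h1 (one_lt_pow' h2 hn).ne'

/-- `v (1 - μ ^ i) ≤ v (1 - μ)` for `μ` of valuation at most one. -/
theorem val_one_sub_pow_le {μ : K} (hμ : P.valuation μ ≤ 1) (i : ℕ) :
    P.valuation (1 - μ ^ i) ≤ P.valuation (1 - μ) := by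
  have h : 1 - μ ^ i = (1 - μ) * ∑ l ∈ range i, μ ^ l := by
    rw [mul_comm, geom_sum_mul_neg]
  rw [h, map_mul]
  apply mul_le_of_le_one_right'
  apply Valuation.map_sum_le
  intro l _
  rw [map_pow]
  exact pow_le_one' hμ l

end General

section Cyclo

variable {K : Type*} [Field K] (P : ValuationSubring K) {p : ℕ} (hp : p.Prime) {ζ : K}
  (hζ : IsPrimitiveRoot ζ p)

include hp hζ

/-- All primitive `p`-th roots of unity `μ` have the same `v (1 - μ)`. -/
theorem val_one_sub_eq {μ : K} (hμ : μ ^ p = 1) (hμ1 : μ ≠ 1) :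
    P.valuation (1 - μ) = P.valuation (1 - ζ) := by
  have : NeZero p := ⟨hp.ne_zero⟩
  have hμp : IsPrimitiveRoot μ p := by
    have h1 : orderOf μ ∣ p := orderOf_dvd_of_pow_eq_one hμ
    rcases (Nat.dvd_prime hp).mp h1 with h | h
    · exact absurd (orderOf_eq_one_iff.mp h) hμ1
    · rw [← h]
      exact IsPrimitiveRoot.orderOf μ
  obtain ⟨i, -, hi⟩ := hζ.eq_pow_of_pow_eq_one hμ
  obtain ⟨j, -, hj⟩ := hμp.eq_pow_of_pow_eq_one hζ.pow_eq_one
  apply le_antisymm
  · rw [← hi]
    exact val_one_sub_pow_le P (val_eq_one_of_pow_eq_one P hp.ne_zero hζ.pow_eq_one).le i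
  · rw [← hj]
    exact val_one_sub_pow_le P (val_eq_one_of_pow_eq_one P hp.ne_zero hμ).le j

/-- Distinct `p`-th roots of unity differ by an element of the valuation of `1 - ζ`. -/
theorem val_sub_eq {μ μ' : K} (hμ : μ ^ p = 1) (hμ' : μ' ^ p = 1) (hne : μ ≠ μ') :
    P.valuation (μ - μ') = P.valuation (1 - ζ) := by
  have hμ'0 : μ' ≠ 0 := by
    rintro rfl
    rw [zero_pow hp.ne_zero] at hμ'
    exact zero_ne_one hμ'
  have h1 : μ - μ' = -μ' * (1 - μ / μ') := by field_simp; ring
  rw [h1, map_mul, Valuation.map_neg, val_eq_one_of_pow_eq_one P hp.ne_zero hμ', one_mul]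
  apply val_one_sub_eq P hp hζ
  · rw [div_pow, hμ, hμ', div_one]
  · intro h
    apply hne
    field_simp at h
    exact h

/-- `v p = v (1 - ζ) ^ (p - 1)`. -/
theorem val_p_eq : P.valuation (p : K) = P.valuation (1 - ζ) ^ (p - 1) := by
  have hp1 : p = (p - 1) + 1 := by have := hp.pos; omega
  have hζ' : IsPrimitiveRoot ζ ((p - 1) + 1) := by rw [← hp1]; exact hζ
  have h := hζ'.prod_one_sub_pow_eq_order
  have h2 : (p : K) = ∏ k ∈ range (p - 1), (1 - ζ ^ (k + 1)) := by
    rw [h]
    have : ((p - 1 : ℕ) : K) + 1 = ((p - 1 + 1 : ℕ) : K) := by push_cast; ring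
    rw [this, ← hp1]
  rw [h2, map_prod]
  have h3 : ∀ k ∈ range (p - 1), P.valuation (1 - ζ ^ (k + 1)) = P.valuation (1 - ζ) := by
    intro k hk
    apply val_one_sub_eq P hp hζ
    · rw [← pow_mul, mul_comm, pow_mul, hζ.pow_eq_one, one_pow]
    · intro h1
      have := hζ.dvd_of_pow_eq_one _ h1
      have hk' := mem_range.mp hk
      have := Nat.le_of_dvd (Nat.succ_pos k) this
      omega
  rw [prod_congr rfl h3, prod_const, card_range]

/-- **Closest root.** If `x ^ p ≡ 1` modulo `p * c` then `x` is congruent modulo `c` to a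
`p`-th root of unity. -/
theorem exists_root_near (x c : K) (h : P.valuation (x ^ p - 1) ≤ P.valuation ((p : K) * c)) :
    ∃ μ : K, μ ^ p = 1 ∧ P.valuation (x - μ) ≤ P.valuation c := by
  classical
  have hpos : 0 < p := hp.pos
  have hprod : x ^ p - 1 = ∏ μ ∈ Polynomial.nthRootsFinset p (1 : K), (x - μ) := by
    have := congrArg (Polynomial.eval x) (Polynomial.X_pow_sub_one_eq_prod hpos hζ)
    simpa [Polynomial.eval_prod] using this
  have hne : (Polynomial.nthRootsFinset p (1 : K)).Nonempty :=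
    ⟨1, (Polynomial.mem_nthRootsFinset hpos 1).mpr (one_pow p)⟩
  obtain ⟨μ₀, hμ₀, hmin⟩ := Finset.exists_min_image (Polynomial.nthRootsFinset p (1 : K))
    (fun μ => P.valuation (x - μ)) hne
  have hμ₀' : μ₀ ^ p = 1 := (Polynomial.mem_nthRootsFinset hpos 1).mp hμ₀
  refine ⟨μ₀, hμ₀', ?_⟩
  have hcard : ((Polynomial.nthRootsFinset p (1 : K)).erase μ₀).card = p - 1 := by
    rw [Finset.card_erase_of_mem hμ₀, hζ.card_nthRootsFinset]
  have hother : ∀ μ ∈ (Polynomial.nthRootsFinset p (1 : K)).erase μ₀,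
      P.valuation (1 - ζ) ≤ P.valuation (x - μ) := by
    intro μ hμ
    obtain ⟨hμne, hμmem⟩ := Finset.mem_erase.mp hμ
    have hμ' : μ ^ p = 1 := (Polynomial.mem_nthRootsFinset hpos 1).mp hμmem
    rw [← val_sub_eq P hp hζ hμ₀' hμ' (Ne.symm hμne)]
    have e : μ₀ - μ = (x - μ) - (x - μ₀) := by ring
    rw [e]
    exact le_trans (Valuation.map_sub _ _ _) (max_le le_rfl (hmin μ hμmem))
  have h1 : P.valuation (x - μ₀) * P.valuation (1 - ζ) ^ (p - 1) ≤ P.valuation (x ^ p - 1) := by
    rw [hprod, map_prod, ← Finset.mul_prod_erase _ _ hμ₀, ← hcard, ← Finset.prod_const]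
    exact mul_le_mul' le_rfl (Finset.prod_le_prod' hother)
  rw [← val_p_eq P hp hζ] at h1
  have h2 := le_trans h1 h
  rw [map_mul, mul_comm (P.valuation (x - μ₀))] at h2
  have hp0 : 0 < P.valuation (p : K) := by
    rw [zero_lt_iff, Valuation.ne_zero_iff]
    intro h0
    have hζ1 : (1 : K) - ζ ≠ 0 := by
      intro h3
      have : ζ = 1 := (sub_eq_zero.mp h3).symm
      exact hζ.ne_one hp.one_lt this
    have : P.valuation (p : K) ≠ 0 := by
      rw [val_p_eq P hp hζ]
      exact pow_ne_zero _ ((Valuation.ne_zero_iff _).mpr hζ1)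
    exact this (by rw [h0, map_zero])
  exact le_of_mul_le_mul_left h2 hp0

/-- If `c ^ (p - 1) = p * m` with `m` a non-unit, then `v c < v (1 - ζ)`. -/
theorem val_lt_of_pow_eq {c m : K} (hc : c ^ (p - 1) = (p : K) * m) (hm : P.valuation m < 1)
    (hp0 : (p : K) ≠ 0) : P.valuation c < P.valuation (1 - ζ) := by
  by_contra hle
  rw [not_lt] at hle
  have h1 : P.valuation (1 - ζ) ^ (p - 1) ≤ P.valuation c ^ (p - 1) := pow_le_pow_left' hle _
  rw [← val_p_eq P hp hζ, ← map_pow, hc, map_mul] at h1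
  have hpos : 0 < P.valuation (p : K) := zero_lt_iff.mpr ((Valuation.ne_zero_iff _).mpr hp0)
  have h2 : P.valuation (p : K) * P.valuation m < P.valuation (p : K) * 1 :=
    mul_lt_mul_of_pos_left hm hpos
  rw [mul_one] at h2
  exact absurd h1 (not_le.mpr h2)

end Cyclo

section Arch

local notation "Qb" => AlgebraicClosure ℚ

variable (P : ValuationSubring Qb) {p : ℕ} (hp : p.Prime) (hpP : P.valuation (p : Qb) < 1)

include hp hpP

/-- Integers prime to `p` are units of `P`. -/
theorem val_intCast_eq_one {n : ℤ} (hn : ¬ (p : ℤ) ∣ n) : P.valuation (n : Qb) = 1 := by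
  by_contra hne
  have hlt := lt_of_le_of_ne (val_intCast_le_one P n) hne
  have hcop : IsCoprime (p : ℤ) n := (Nat.prime_iff_prime_int.mp hp).coprime_iff_not_dvd.mpr hn
  obtain ⟨a, b, hab⟩ := hcop
  have h1 : P.valuation ((a : Qb) * (p : Qb) + (b : Qb) * (n : Qb)) < 1 := by
    refine lt_of_le_of_lt (Valuation.map_add _ _ _) (max_lt ?_ ?_)
    · rw [map_mul]
      exact lt_of_le_of_lt (mul_le_of_le_one_left' (val_intCast_le_one P a)) hpP
    · rw [map_mul]
      exact lt_of_le_of_lt (mul_le_of_le_one_left' (val_intCast_le_one P b)) hlt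
  have h2 : (a : Qb) * (p : Qb) + (b : Qb) * (n : Qb) = 1 := by exact_mod_cast congrArg (Int.cast : ℤ → Qb) hab
  rw [h2, map_one] at h1
  exact lt_irrefl _ h1

/-- The valuation of a nonzero integer is that of a power of `p`. -/
theorem exists_val_intCast_eq {n : ℤ} (hn : n ≠ 0) :
    ∃ e : ℕ, P.valuation (n : Qb) = P.valuation (p : Qb) ^ e := by
  obtain ⟨e, n', hn', hmn⟩ := Nat.exists_eq_pow_mul_and_not_dvd (Int.natAbs_ne_zero.mpr hn) p
    hp.ne_one
  refine ⟨e, ?_⟩
  have h1 : P.valuation (n : Qb) = P.valuation ((n.natAbs : ℕ) : Qb) := by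
    rcases Int.natAbs_eq n with h | h
    · conv_lhs => rw [h]
      rw [Int.cast_natCast]
    · conv_lhs => rw [h]
      rw [Int.cast_neg, Int.cast_natCast, Valuation.map_neg]
  have h2 : P.valuation ((n' : ℕ) : Qb) = 1 := by
    have := val_intCast_eq_one P hp hpP (n := (n' : ℤ))
      (fun h => hn' (Int.natCast_dvd_natCast.mp h))
    rwa [Int.cast_natCast] at this
  rw [h1, hmn, Nat.cast_mul, Nat.cast_pow, map_mul, h2, mul_one, map_pow]

omit hp in
private theorem arch_aux {τ : Qb} (hτ0 : τ ≠ 0) (hτ : P.valuation τ < 1) {i j e e' : ℕ}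
    (hij : i < j)
    (h : P.valuation (p : Qb) ^ e * P.valuation τ ^ i = P.valuation (p : Qb) ^ e' * P.valuation τ ^ j)
    (hp0 : (p : Qb) ≠ 0) :
    P.valuation (τ ^ (j - i)) ≤ P.valuation (p : Qb) := by
  have hτpos : 0 < P.valuation τ := zero_lt_iff.mpr ((Valuation.ne_zero_iff _).mpr hτ0)
  have hppos : 0 < P.valuation (p : Qb) := zero_lt_iff.mpr ((Valuation.ne_zero_iff _).mpr hp0)
  have hj : j = i + (j - i) := by omega
  have ht : P.valuation τ ^ (j - i) < 1 := pow_lt_one' hτ (by omega)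
  have h1 : P.valuation (p : Qb) ^ e = P.valuation (p : Qb) ^ e' * P.valuation τ ^ (j - i) := by
    have h2 : P.valuation (p : Qb) ^ e * P.valuation τ ^ i =
        (P.valuation (p : Qb) ^ e' * P.valuation τ ^ (j - i)) * P.valuation τ ^ i := by
      have h3 : P.valuation τ ^ j = P.valuation τ ^ (j - i) * P.valuation τ ^ i := by
        rw [← pow_add, Nat.sub_add_cancel hij.le]
      rw [h, h3, mul_assoc]
    exact mul_right_cancel₀ (pow_ne_zero _ hτpos.ne') h2
  rw [map_pow]
  rcases le_or_gt e e' with hee | hee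
  · exfalso
    have h3 : P.valuation (p : Qb) ^ e' ≤ P.valuation (p : Qb) ^ e :=
      pow_le_pow_right_of_le_one' hpP.le hee
    have h4 : P.valuation (p : Qb) ^ e' * P.valuation τ ^ (j - i) <
        P.valuation (p : Qb) ^ e' * 1 := mul_lt_mul_of_pos_left ht (pow_pos hppos _)
    rw [mul_one, ← h1] at h4
    exact absurd h3 (not_le.mpr h4)
  · obtain ⟨k, rfl⟩ : ∃ k, e = e' + (k + 1) := ⟨e - e' - 1, by omega⟩
    rw [pow_add] at h1
    have h5 := mul_left_cancel₀ (pow_ne_zero _ hppos.ne') h1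
    rw [← h5, pow_succ]
    exact mul_le_of_le_one_left' (pow_le_one' hpP.le k)

/-- **Archimedean property, relative to `p`.** A power of a non-unit is divisible by `p`. -/
theorem exists_pow_val_le_p {τ : Qb} (hτ0 : τ ≠ 0) (hτ : P.valuation τ < 1) :
    ∃ n : ℕ, 0 < n ∧ P.valuation (τ ^ n) ≤ P.valuation (p : Qb) := by
  classical
  have hp0 : (p : Qb) ≠ 0 := by exact_mod_cast hp.ne_zero
  have hQ : Algebra.IsAlgebraic ℚ Qb := AlgebraicClosure.isAlgebraic ℚ
  have halg : IsAlgebraic ℤ τ :=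
    (IsFractionRing.isAlgebraic_iff ℤ ℚ Qb).mpr (Algebra.IsAlgebraic.isAlgebraic τ)
  obtain ⟨f, hf0, hf⟩ := halg
  let u : ℕ → Qb := fun i => (f.coeff i : Qb) * τ ^ i
  have hsum : ∑ i ∈ f.support, u i = 0 := by
    rw [← hf, Polynomial.aeval_def, Polynomial.eval₂_eq_sum, Polynomial.sum_def]
    rfl
  have hne : f.support.Nonempty := Polynomial.support_nonempty.mpr hf0
  have hu0 : ∀ i ∈ f.support, u i ≠ 0 := by
    intro i hi
    have : f.coeff i ≠ 0 := Polynomial.mem_support_iff.mp hi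
    exact mul_ne_zero (by exact_mod_cast this) (pow_ne_zero _ hτ0)
  obtain ⟨i₀, hi₀, hmax⟩ := Finset.exists_max_image f.support (fun i => P.valuation (u i)) hne
  have hex : ∃ i₁ ∈ f.support, i₁ ≠ i₀ ∧ P.valuation (u i₁) = P.valuation (u i₀) := by
    by_contra hcon
    push Not at hcon
    have hlt : ∀ i ∈ f.support.erase i₀, P.valuation (u i) < P.valuation (u i₀) := by
      intro i hi
      obtain ⟨hine, hi'⟩ := Finset.mem_erase.mp hi
      exact lt_of_le_of_ne (hmax i hi') (hcon i hi' hine)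
    have h1 : u i₀ = -∑ i ∈ f.support.erase i₀, u i := by
      rw [← Finset.add_sum_erase _ _ hi₀] at hsum
      exact eq_neg_of_add_eq_zero_left hsum
    have h2 : P.valuation (∑ i ∈ f.support.erase i₀, u i) < P.valuation (u i₀) :=
      Valuation.map_sum_lt _ ((Valuation.ne_zero_iff _).mpr (hu0 i₀ hi₀)) hlt
    rw [← Valuation.map_neg, ← h1] at h2
    exact lt_irrefl _ h2
  obtain ⟨i₁, hi₁, hne1, heq⟩ := hex
  have hc : ∀ i ∈ f.support, ∃ e : ℕ, P.valuation (u i) =
      P.valuation (p : Qb) ^ e * P.valuation τ ^ i := by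
    intro i hi
    obtain ⟨e, he⟩ := exists_val_intCast_eq P hp hpP (Polynomial.mem_support_iff.mp hi)
    exact ⟨e, by simp only [u]; rw [map_mul, map_pow, he]⟩
  obtain ⟨e₀, he₀⟩ := hc i₀ hi₀
  obtain ⟨e₁, he₁⟩ := hc i₁ hi₁
  rw [he₀, he₁] at heq
  rcases lt_or_gt_of_ne hne1 with hlt | hlt
  · exact ⟨i₀ - i₁, by omega, arch_aux P hpP hτ0 hτ hlt heq hp0⟩
  · exact ⟨i₁ - i₀, by omega, arch_aux P hpP hτ0 hτ hlt heq.symm hp0⟩

/-- **Archimedean property.** A power of a non-unit is divisible by a given nonzero natural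
number. -/
theorem exists_pow_val_le_natCast {τ : Qb} (hτ0 : τ ≠ 0) (hτ : P.valuation τ < 1) {d : ℕ}
    (hd : d ≠ 0) : ∃ N : ℕ, P.valuation (τ ^ N) ≤ P.valuation (d : Qb) := by
  obtain ⟨n, -, hn⟩ := exists_pow_val_le_p P hp hpP hτ0 hτ
  obtain ⟨e, he⟩ := exists_val_intCast_eq P hp hpP (n := (d : ℤ)) (by exact_mod_cast hd)
  rw [Int.cast_natCast] at he
  refine ⟨n * e, ?_⟩
  rw [he, pow_mul, map_pow]
  exact pow_le_pow_left' hn e

end Arch

end Fermat.Agent.Lib.FinFlat.Fontaine
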