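/-
Lib/FinFlat/Fontaine/Lev: levels in the dual lattice of a `P`-order (FLAT-T1).

`Lev B d a` : the element `a` of the group algebra pairs every element of the order `B` into
`d • P` (valuation form).  The dual lattice is a ring (comultiplication of `B`), and the levels
are multiplicative.

* `lev_pow_sub_one` : an approximately multiplicative functional `y` on `B` is represented by
  a `z` with `z ^ p ≡ 1` (`p`-fold comultiplication, `V` killed by `p`);
* `exists_improved` : finitely many Newton-type improvements `z ↦ z (1 - (z ^ p - 1) / p)`.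
-/
import Mathlib
import Fermat.Agent.Lib.FinFlat.POrder
import Fermat.Agent.Lib.FinFlat.Fontaine.Val

set_option autoImplicit false
set_option linter.unusedSectionVars false

namespace Fermat.Agent.Lib.FinFlat.Fontaine

open Finset

local notation "Qb" => AlgebraicClosure ℚ
local notation "GQ" => (AlgebraicClosure ℚ ≃ₐ[ℚ] AlgebraicClosure ℚ)

variable {P : ValuationSubring Qb} {Γ : Subgroup GQ} {V : Type} [AddCommGroup V] [Fintype V]
  {act : GQ → V → V} {B : Subalgebra P (V → Qb)}

/-- `a` lies in `d` times the dual lattice of `B`. -/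
def Lev (B : Subalgebra P (V → Qb)) (d : Qb) (a : AddMonoidAlgebra Qb V) : Prop :=
  ∀ f ∈ B, P.valuation (pair a f) ≤ P.valuation d

theorem pair_zero (f : V → Qb) : pair (0 : AddMonoidAlgebra Qb V) f = 0 := by
  simp [pair]

theorem pair_neg (a : AddMonoidAlgebra Qb V) (f : V → Qb) : pair (-a) f = -pair a f := by
  rw [← neg_one_smul Qb a, pair_smul, neg_one_mul]

theorem pair_sub (a a' : AddMonoidAlgebra Qb V) (f : V → Qb) :
    pair (a - a') f = pair a f - pair a' f := by
  rw [sub_eq_add_neg, pair_add, pair_neg, sub_eq_add_neg]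

theorem pair_one (f : V → Qb) : pair (1 : AddMonoidAlgebra Qb V) f = f 0 := by
  classical
  rw [AddMonoidAlgebra.one_def, pair_single, one_mul]

theorem pair_natCast (n : ℕ) (f : V → Qb) :
    pair ((n : ℕ) : AddMonoidAlgebra Qb V) f = n * f 0 := by
  have h : ((n : ℕ) : AddMonoidAlgebra Qb V) = (n : Qb) • (1 : AddMonoidAlgebra Qb V) := by
    rw [Nat.cast_smul_eq_nsmul, nsmul_eq_mul, mul_one]
  rw [h, pair_smul, pair_one]

theorem Lev.mono {d e : Qb} {a : AddMonoidAlgebra Qb V} (h : Lev B d a)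
    (hd : P.valuation d ≤ P.valuation e) : Lev B e a :=
  fun f hf => le_trans (h f hf) hd

theorem lev_zero (d : Qb) : Lev B d (0 : AddMonoidAlgebra Qb V) := by
  intro f _
  rw [pair_zero, map_zero]
  exact zero_le

theorem Lev.add {d : Qb} {a a' : AddMonoidAlgebra Qb V} (h : Lev B d a) (h' : Lev B d a') :
    Lev B d (a + a') := by
  intro f hf
  rw [pair_add]
  exact Valuation.map_add_le _ (h f hf) (h' f hf)

theorem Lev.neg {d : Qb} {a : AddMonoidAlgebra Qb V} (h : Lev B d a) : Lev B d (-a) := by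
  intro f hf
  rw [pair_neg, Valuation.map_neg]
  exact h f hf

theorem Lev.sub {d : Qb} {a a' : AddMonoidAlgebra Qb V} (h : Lev B d a) (h' : Lev B d a') :
    Lev B d (a - a') := by
  rw [sub_eq_add_neg]
  exact h.add h'.neg

theorem Lev.smul {d : Qb} {a : AddMonoidAlgebra Qb V} (r : Qb) (h : Lev B d a) :
    Lev B (r * d) (r • a) := by
  intro f hf
  rw [pair_smul, map_mul, map_mul]
  exact mul_le_mul' le_rfl (h f hf)

theorem Lev.sum {ι : Type} (s : Finset ι) {d : Qb} {a : ι → AddMonoidAlgebra Qb V}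
    (h : ∀ i ∈ s, Lev B d (a i)) : Lev B d (∑ i ∈ s, a i) := by
  intro f hf
  rw [pair_sum_left]
  exact Valuation.map_sum_le _ fun i hi => h i hi f hf

theorem lev_one (hB : IsPOrder P Γ act B) : Lev B 1 (1 : AddMonoidAlgebra Qb V) := by
  intro f hf
  rw [pair_one, map_one]
  exact (P.valuation_le_one_iff _).mpr (hB.integral f hf 0)

theorem lev_natCast (hB : IsPOrder P Γ act B) (n : ℕ) :
    Lev B (n : Qb) ((n : ℕ) : AddMonoidAlgebra Qb V) := by
  intro f hf
  rw [pair_natCast, map_mul]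
  exact mul_le_of_le_one_right' ((P.valuation_le_one_iff _).mpr (hB.integral f hf 0))

theorem lev_single (hB : IsPOrder P Γ act B) (v : V) :
    Lev B 1 (AddMonoidAlgebra.single v (1 : Qb)) := by
  classical
  intro f hf
  rw [pair_single, one_mul, map_one]
  exact (P.valuation_le_one_iff _).mpr (hB.integral f hf v)

theorem Lev.mul (hB : IsPOrder P Γ act B) {d e : Qb} {a a' : AddMonoidAlgebra Qb V}
    (h : Lev B d a) (h' : Lev B e a') : Lev B (d * e) (a * a') := by
  intro f hf
  obtain ⟨n, g, k, hg, hk, hfgk⟩ := hB.comul f hf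
  rw [pair_mul a a' f g k hfgk]
  apply Valuation.map_sum_le
  intro i _
  rw [map_mul, map_mul]
  exact mul_le_mul' (h _ (hg i)) (h' _ (hk i))

theorem Lev.pow (hB : IsPOrder P Γ act B) {d : Qb} {a : AddMonoidAlgebra Qb V}
    (h : Lev B d a) (k : ℕ) : Lev B (d ^ k) (a ^ k) := by
  induction k with
  | zero => rw [pow_zero, pow_zero]; exact lev_one hB
  | succ k ih => rw [pow_succ, pow_succ]; exact ih.mul hB h

/-- Composition with multiplication by `k` preserves the order. -/
theorem comp_nsmul_mem (hB : IsPOrder P Γ act B) (k : ℕ) :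
    ∀ f ∈ B, (fun v => f (k • v)) ∈ B := by
  induction k with
  | zero =>
    intro f hf
    have h : (fun v : V => f (0 • v)) = (⟨f 0, hB.integral f hf 0⟩ : P) • (1 : V → Qb) := by
      funext v
      rw [zero_smul]
      change f 0 = f 0 * 1
      rw [mul_one]
    rw [h]
    exact B.smul_mem B.one_mem _
  | succ k ih =>
    intro f hf
    obtain ⟨n, g, h, hg, hh, hfgh⟩ := hB.comul f hf
    have e : (fun v : V => f ((k + 1) • v)) = ∑ i, (fun v => g i (k • v)) * h i := by
      funext v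
      rw [succ_nsmul, hfgh, Finset.sum_apply]
      rfl
    rw [e]
    exact B.sum_mem fun i _ => B.mul_mem (ih _ (hg i)) (hh i)

/-- `p`-fold comultiplication: `⟨z ^ k, f⟩ ≡ y (f ∘ [k])` for an approximately multiplicative
functional `y` represented by `z`. -/
theorem val_pair_pow_sub (hB : IsPOrder P Γ act B) (z : AddMonoidAlgebra Qb V)
    (y : (V → Qb) →ₗ[Qb] Qb) (hz : ∀ f, pair z f = y f) (d : Qb)
    (hyP : ∀ f ∈ B, P.valuation (y f) ≤ 1)
    (hy1 : P.valuation (y 1 - 1) ≤ P.valuation d)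
    (hymul : ∀ f ∈ B, ∀ g ∈ B, P.valuation (y (f * g) - y f * y g) ≤ P.valuation d) (k : ℕ) :
    ∀ f ∈ B, P.valuation (pair (z ^ k) f - y (fun v => f (k • v))) ≤ P.valuation d := by
  induction k with
  | zero =>
    intro f hf
    have h : (fun v : V => f (0 • v)) = f 0 • (1 : V → Qb) := by
      funext v
      rw [zero_smul]
      change f 0 = f 0 * 1
      rw [mul_one]
    rw [h, pow_zero, pair_one, map_smul, smul_eq_mul]
    have e : f 0 - f 0 * y 1 = -(f 0 * (y 1 - 1)) := by ring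
    rw [e, Valuation.map_neg, map_mul]
    exact le_trans (mul_le_mul' ((P.valuation_le_one_iff _).mpr (hB.integral f hf 0)) hy1)
      (by rw [one_mul])
  | succ k ih =>
    intro f hf
    obtain ⟨n, g, h, hg, hh, hfgh⟩ := hB.comul f hf
    have e : (fun v : V => f ((k + 1) • v)) = ∑ i, (fun v => g i (k • v)) * h i := by
      funext v
      rw [succ_nsmul, hfgh, Finset.sum_apply]
      rfl
    rw [e, pow_succ, pair_mul (z ^ k) z f g h hfgh, map_sum, ← Finset.sum_sub_distrib]
    apply Valuation.map_sum_le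
    intro i _
    have e2 : pair (z ^ k) (g i) * pair z (h i) - y ((fun v => g i (k • v)) * h i) =
        (pair (z ^ k) (g i) - y (fun v => g i (k • v))) * y (h i) -
          (y ((fun v => g i (k • v)) * h i) - y (fun v => g i (k • v)) * y (h i)) := by
      rw [hz]; ring
    rw [e2]
    apply Valuation.map_sub_le
    · rw [map_mul]
      exact le_trans (mul_le_mul' (ih _ (hg i)) (hyP _ (hh i))) (by rw [mul_one])
    · exact hymul _ (comp_nsmul_mem hB k _ (hg i)) _ (hh i)

/-- `z ^ p ≡ 1` modulo `d` in the dual lattice. -/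
theorem lev_pow_sub_one (hB : IsPOrder P Γ act B) {p : ℕ} (hpV : ∀ v : V, p • v = 0)
    (z : AddMonoidAlgebra Qb V)
    (y : (V → Qb) →ₗ[Qb] Qb) (hz : ∀ f, pair z f = y f) (d : Qb)
    (hyP : ∀ f ∈ B, P.valuation (y f) ≤ 1)
    (hy1 : P.valuation (y 1 - 1) ≤ P.valuation d)
    (hymul : ∀ f ∈ B, ∀ g ∈ B, P.valuation (y (f * g) - y f * y g) ≤ P.valuation d) :
    Lev B d (z ^ p - 1) := by
  intro f hf
  have h1 := val_pair_pow_sub hB z y hz d hyP hy1 hymul p f hf
  have h : (fun v : V => f (p • v)) = f 0 • (1 : V → Qb) := by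
    funext v
    rw [hpV]
    change f 0 = f 0 * 1
    rw [mul_one]
  rw [h, map_smul, smul_eq_mul] at h1
  rw [pair_sub, pair_one]
  have e : pair (z ^ p) f - f 0 = (pair (z ^ p) f - f 0 * y 1) + f 0 * (y 1 - 1) := by ring
  rw [e]
  apply Valuation.map_add_le _ h1
  rw [map_mul]
  exact le_trans (mul_le_mul' ((P.valuation_le_one_iff _).mpr (hB.integral f hf 0)) hy1)
    (by rw [one_mul])

/-- The binomial remainder: `(1 - u) ^ p ≡ 1 - p u` modulo `p d τ` when `u` has level `d`. -/
theorem lev_binom (hB : IsPOrder P Γ act B) {p : ℕ} (hp : p.Prime) {τ d : Qb}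
    (hdτ : P.valuation d ≤ P.valuation τ) (hd1 : P.valuation d ≤ 1)
    (hdp : P.valuation (d ^ p) ≤ P.valuation ((p : Qb) * (d * τ)))
    {u : AddMonoidAlgebra Qb V} (hu : Lev B d u) :
    Lev B ((p : Qb) * (d * τ)) ((1 - u) ^ p - 1 + (p : AddMonoidAlgebra Qb V) * u) := by
  have h := add_pow_prime_eq' hp (-u) (1 : AddMonoidAlgebra Qb V)
  have h1 : (1 - u) ^ p - 1 + (p : AddMonoidAlgebra Qb V) * u =
      (-u) ^ p + (p : AddMonoidAlgebra Qb V) * (∑ k ∈ Ioo 0 p,
        ((-u) ^ k * 1 ^ (p - k) * ((p.choose k / p : ℕ) : AddMonoidAlgebra Qb V) +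
          if k = 1 then u else 0)) := by
    rw [Finset.sum_add_distrib, Finset.sum_ite_eq', if_pos (mem_Ioo.mpr ⟨one_pos, hp.one_lt⟩)]
    have e : (1 - u) = -u + 1 := by ring
    rw [e, h]
    ring
  rw [h1]
  refine Lev.add ((hu.neg.pow hB p).mono hdp) ((lev_natCast hB p).mul hB (Lev.sum _ ?_))
  intro k hk
  obtain ⟨hk0, hkp⟩ := mem_Ioo.mp hk
  by_cases hk1 : k = 1
  · subst hk1
    rw [if_pos rfl, Nat.choose_one_right, Nat.div_self hp.pos]
    have e : (-u) ^ 1 * 1 ^ (p - 1) * ((1 : ℕ) : AddMonoidAlgebra Qb V) + u = 0 := by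
      rw [pow_one, one_pow, Nat.cast_one]
      ring
    rw [e]
    exact lev_zero _
  · rw [if_neg hk1, add_zero]
    have h2 : Lev B (d ^ k * 1 ^ (p - k) * 1)
        ((-u) ^ k * 1 ^ (p - k) * ((p.choose k / p : ℕ) : AddMonoidAlgebra Qb V)) :=
      ((hu.neg.pow hB k).mul hB ((lev_one hB).pow hB (p - k))).mul hB
        ((lev_natCast hB _).mono (by rw [map_one]; exact val_natCast_le_one P _))
    refine h2.mono ?_
    rw [one_pow, mul_one, mul_one, map_pow, map_mul]
    obtain ⟨j, rfl⟩ : ∃ j, k = j + 2 := ⟨k - 2, by omega⟩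
    rw [pow_add, pow_two]
    calc P.valuation d ^ j * (P.valuation d * P.valuation d)
        ≤ 1 * (P.valuation d * P.valuation τ) :=
          mul_le_mul' (pow_le_one' hd1 j) (mul_le_mul' le_rfl hdτ)
      _ = _ := one_mul _

/-- One Newton-type improvement. -/
theorem exists_improve (hB : IsPOrder P Γ act B) {p : ℕ} (hp : p.Prime) (hp0 : (p : Qb) ≠ 0)
    (hpP : P.valuation (p : Qb) ≤ 1) {τ d : Qb}
    (hdτ : P.valuation d ≤ P.valuation τ) (hτ1 : P.valuation τ ≤ 1)
    (hdp : P.valuation (d ^ p) ≤ P.valuation ((p : Qb) * (d * τ)))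
    {z : AddMonoidAlgebra Qb V} (hz : Lev B 1 z) (hw : Lev B ((p : Qb) * d) (z ^ p - 1)) :
    ∃ z' : AddMonoidAlgebra Qb V, Lev B 1 z' ∧ Lev B d (z' - z) ∧
      Lev B ((p : Qb) * (d * τ)) (z' ^ p - 1) := by
  have hd1 : P.valuation d ≤ 1 := hdτ.trans hτ1
  obtain ⟨w, hwdef⟩ : ∃ w : AddMonoidAlgebra Qb V, w = z ^ p - 1 := ⟨_, rfl⟩
  rw [← hwdef] at hw
  obtain ⟨u, hudef⟩ : ∃ u : AddMonoidAlgebra Qb V, u = (p : Qb)⁻¹ • w := ⟨_, rfl⟩
  have hu : Lev B d u := by
    have h := hw.smul (p : Qb)⁻¹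
    rwa [← mul_assoc, inv_mul_cancel₀ hp0, one_mul, ← hudef] at h
  have hpu : (p : AddMonoidAlgebra Qb V) * u = w := by
    rw [hudef, ← nsmul_eq_mul, ← Nat.cast_smul_eq_nsmul Qb, smul_smul, mul_inv_cancel₀ hp0,
      one_smul]
  have hE := lev_binom hB hp hdτ hd1 hdp hu
  obtain ⟨E, hEdef⟩ : ∃ E : AddMonoidAlgebra Qb V,
      E = (1 - u) ^ p - 1 + (p : AddMonoidAlgebra Qb V) * u := ⟨_, rfl⟩
  rw [← hEdef] at hE
  refine ⟨z * (1 - u), ?_, ?_, ?_⟩
  · have h := hz.mul hB ((lev_one hB).sub (hu.mono (by rw [map_one]; exact hd1)))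
    rwa [one_mul] at h
  · have e : z * (1 - u) - z = -(z * u) := by ring
    rw [e]
    have h := (hz.mul hB hu).neg
    rwa [one_mul] at h
  · have e : (z * (1 - u)) ^ p - 1 = E * z ^ p - w * w := by
      rw [mul_pow]
      have h1 : (1 - u) ^ p = 1 - w + E := by rw [hEdef, hpu]; ring
      have h2 : z ^ p = 1 + w := by rw [hwdef]; ring
      rw [h1, h2]
      ring
    rw [e]
    refine Lev.sub ?_ ?_
    · have h := hE.mul hB (hz.pow hB p)
      rwa [one_pow, mul_one] at h
    · refine (hw.mul hB hw).mono ?_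
      simp only [map_mul]
      calc P.valuation (p : Qb) * P.valuation d * (P.valuation (p : Qb) * P.valuation d)
          ≤ P.valuation (p : Qb) * P.valuation d * (1 * P.valuation τ) :=
            mul_le_mul' le_rfl (mul_le_mul' hpP hdτ)
        _ = P.valuation (p : Qb) * (P.valuation d * P.valuation τ) := by rw [one_mul, mul_assoc]

/-- Finitely many improvements. -/
theorem exists_improved (hB : IsPOrder P Γ act B) {p : ℕ} (hp : p.Prime) (hp0 : (p : Qb) ≠ 0)
    (hpP : P.valuation (p : Qb) ≤ 1) {c m τ : Qb} (hc : c ^ (p - 1) = (p : Qb) * m)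
    (hcτ : P.valuation c ≤ P.valuation τ) (hmτ : P.valuation m ≤ P.valuation τ)
    (hτ1 : P.valuation τ ≤ 1)
    {z : AddMonoidAlgebra Qb V} (hz : Lev B 1 z) (hw : Lev B ((p : Qb) * c) (z ^ p - 1))
    (N : ℕ) :
    ∃ z' : AddMonoidAlgebra Qb V, Lev B 1 z' ∧ Lev B c (z' - z) ∧
      Lev B ((p : Qb) * (c * τ ^ N)) (z' ^ p - 1) := by
  induction N with
  | zero =>
    refine ⟨z, hz, ?_, ?_⟩
    · rw [sub_self]; exact lev_zero _
    · rwa [pow_zero, mul_one]
  | succ N ih =>
    obtain ⟨z₁, h1, h2, h3⟩ := ih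
    have hτN : P.valuation τ ^ N ≤ 1 := pow_le_one' hτ1 N
    have hdτ : P.valuation (c * τ ^ N) ≤ P.valuation τ := by
      rw [map_mul, map_pow]
      exact le_trans (mul_le_mul' hcτ hτN) (by rw [mul_one])
    have hdc : P.valuation (c * τ ^ N) ≤ P.valuation c := by
      rw [map_mul, map_pow]
      exact le_trans (mul_le_mul' le_rfl hτN) (by rw [mul_one])
    have hdp : P.valuation ((c * τ ^ N) ^ p) ≤ P.valuation ((p : Qb) * (c * τ ^ N * τ)) := by
      have hp1 : p = (p - 1) + 1 := by have := hp.pos; omega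
      have e : (c * τ ^ N) ^ p = (p : Qb) * m * c * (τ ^ N) ^ p := by
        rw [mul_pow]
        nth_rewrite 1 [hp1]
        rw [pow_succ, hc]
      rw [e]
      simp only [map_mul, map_pow]
      have hx : (P.valuation τ ^ N) ^ p ≤ P.valuation τ ^ N := by
        have := pow_le_pow_right_of_le_one' hτN (show 1 ≤ p from hp.pos)
        rwa [pow_one] at this
      calc P.valuation (p : Qb) * P.valuation m * P.valuation c * (P.valuation τ ^ N) ^ p
          ≤ P.valuation (p : Qb) * P.valuation τ * P.valuation c * P.valuation τ ^ N :=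
            mul_le_mul' (mul_le_mul' (mul_le_mul' le_rfl hmτ) le_rfl) hx
        _ = P.valuation (p : Qb) * (P.valuation c * P.valuation τ ^ N * P.valuation τ) := by
            rw [mul_assoc, mul_assoc, mul_comm (P.valuation τ) (P.valuation c * P.valuation τ ^ N)]
    obtain ⟨z₂, g1, g2, g3⟩ := exists_improve hB hp hp0 hpP hdτ hτ1 hdp h1 h3
    refine ⟨z₂, g1, ?_, ?_⟩
    · have e : z₂ - z = (z₂ - z₁) + (z₁ - z) := by ring
      rw [e]
      exact (g2.mono hdc).add h2
    · rwa [pow_succ, ← mul_assoc c]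

end Fermat.Agent.Lib.FinFlat.Fontaine
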