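/-
Lib/FinFlat/Fontaine/Char: additive characters of an elementary abelian `p`-group (FLAT-T1).

`V` a finite `ZMod p`-vector space, `ζ` a primitive `p`-th root of unity in `Qb`.  The characters
are `v ↦ ζ ^ (ℓ v)` for `ℓ` in the dual space.

* `sum_chi_dual` : orthogonality;
* `val_card_mul_pair_le` : Fourier inversion in valuation form — an element of the group algebra
  which pairs all characters into `d • P` pairs every `P`-valued function into `(d / |V|) • P`.
-/
import Mathlib
import Fermat.Agent.Lib.FinFlat.POrder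
import Fermat.Agent.Lib.FinFlat.Fontaine.Val
import Fermat.Agent.Lib.FinFlat.Fontaine.Lev

set_option autoImplicit false
set_option linter.unusedSectionVars false

namespace Fermat.Agent.Lib.FinFlat.Fontaine

open Finset

local notation "Qb" => AlgebraicClosure ℚ
local notation "GQ" => (AlgebraicClosure ℚ ≃ₐ[ℚ] AlgebraicClosure ℚ)

section Chi

variable {p : ℕ} [Fact p.Prime] {ζ : Qb} (hζ : IsPrimitiveRoot ζ p)

/-- The additive character `a ↦ ζ ^ a` of `ZMod p`. -/
noncomputable def chi : AddChar (ZMod p) Qb := AddChar.zmodChar p hζ.pow_eq_one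

theorem chi_apply (a : ZMod p) : chi hζ a = ζ ^ a.val := AddChar.zmodChar_apply _ a

theorem chi_pow (a : ZMod p) : chi hζ a ^ p = 1 := by
  rw [chi_apply, ← pow_mul, mul_comm, pow_mul, hζ.pow_eq_one, one_pow]

theorem chi_eq_one_iff (a : ZMod p) : chi hζ a = 1 ↔ a = 0 := by
  rw [chi_apply, hζ.pow_eq_one_iff_dvd]
  constructor
  · intro h
    have h1 : a.val < p := ZMod.val_lt a
    have h2 : a.val = 0 := Nat.eq_zero_of_dvd_of_lt h h1
    exact (ZMod.val_eq_zero a).mp h2
  · rintro rfl
    rw [ZMod.val_zero]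
    exact dvd_zero p

theorem chi_injective : Function.Injective (chi hζ) := by
  intro a b h
  have h1 : chi hζ (a - b) = 1 := by
    rw [sub_eq_add_neg, AddChar.map_add_eq_mul, AddChar.map_neg_eq_inv, h]
    have hb : chi hζ b ≠ 0 := by
      intro h0
      have := chi_pow hζ b
      rw [h0, zero_pow (Fact.out : p.Prime).ne_zero] at this
      exact zero_ne_one this
    exact mul_inv_cancel₀ hb
  exact sub_eq_zero.mp ((chi_eq_one_iff hζ _).mp h1)

theorem exists_chi_eq {μ : Qb} (hμ : μ ^ p = 1) : ∃ a : ZMod p, chi hζ a = μ := by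
  obtain ⟨i, hi, hiμ⟩ := hζ.eq_pow_of_pow_eq_one hμ
  refine ⟨(i : ZMod p), ?_⟩
  rw [chi_apply, ZMod.val_natCast_of_lt hi, hiμ]

theorem val_chi (P : ValuationSubring Qb) (a : ZMod p) : P.valuation (chi hζ a) = 1 :=
  val_eq_one_of_pow_eq_one P (Fact.out : p.Prime).ne_zero (chi_pow hζ a)

variable {V : Type} [AddCommGroup V] [Module (ZMod p) V] [Fintype V]
  [Fintype (Module.Dual (ZMod p) V)]

/-- Orthogonality of characters. -/
theorem sum_chi_dual [DecidableEq V] (u : V) :
    ∑ l : Module.Dual (ZMod p) V, chi hζ (l u) =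
      if u = 0 then (Fintype.card (Module.Dual (ZMod p) V) : Qb) else 0 := by
  split_ifs with hu
  · subst hu
    simp only [map_zero, AddChar.map_zero_eq_one, Finset.sum_const, Finset.card_univ,
      nsmul_eq_mul, mul_one]
  · obtain ⟨l₀, hl₀⟩ : ∃ l₀ : Module.Dual (ZMod p) V, l₀ u ≠ 0 := by
      by_contra h
      push Not at h
      exact hu ((Module.forall_dual_apply_eq_zero_iff (ZMod p) u).mp h)
    have h1 : ∑ l : Module.Dual (ZMod p) V, chi hζ (l u) =
        chi hζ (l₀ u) * ∑ l : Module.Dual (ZMod p) V, chi hζ (l u) := by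
      rw [Finset.mul_sum]
      rw [← Equiv.sum_comp (Equiv.addRight l₀) (fun l : Module.Dual (ZMod p) V => chi hζ (l u))]
      refine Finset.sum_congr rfl fun l _ => ?_
      rw [Equiv.coe_addRight, LinearMap.add_apply, AddChar.map_add_eq_mul, mul_comm]
    have h2 : (1 - chi hζ (l₀ u)) * ∑ l : Module.Dual (ZMod p) V, chi hζ (l u) = 0 := by
      rw [sub_mul, one_mul, ← h1, sub_self]
    rcases mul_eq_zero.mp h2 with h3 | h3
    · exact absurd ((chi_eq_one_iff hζ _).mp (sub_eq_zero.mp h3).symm) hl₀
    · exact h3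

/-- Fourier inversion for the coefficients of an element of the group algebra. -/
theorem card_mul_coeff (a : AddMonoidAlgebra Qb V) (v : V) :
    (Fintype.card (Module.Dual (ZMod p) V) : Qb) * a.coeff v =
      ∑ l : Module.Dual (ZMod p) V, pair a (fun w => chi hζ (l w)) * chi hζ (l (-v)) := by
  classical
  have h1 : ∀ l : Module.Dual (ZMod p) V,
      pair a (fun w => chi hζ (l w)) * chi hζ (l (-v)) =
        ∑ w, a.coeff w * chi hζ (l (w - v)) := by
    intro l
    rw [pair, Finset.sum_mul]
    refine Finset.sum_congr rfl fun w _ => ?_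
    rw [sub_eq_add_neg, map_add, AddChar.map_add_eq_mul, mul_assoc]
  rw [Finset.sum_congr rfl fun l _ => h1 l, Finset.sum_comm]
  have h2 : ∀ w : V, ∑ l : Module.Dual (ZMod p) V, a.coeff w * chi hζ (l (w - v)) =
      if w = v then a.coeff w * (Fintype.card (Module.Dual (ZMod p) V) : Qb) else 0 := by
    intro w
    rw [← Finset.mul_sum, sum_chi_dual hζ (w - v)]
    by_cases hwv : w = v
    · rw [if_pos hwv, if_pos (sub_eq_zero.mpr hwv)]
    · rw [if_neg hwv, if_neg (fun h => hwv (sub_eq_zero.mp h)), mul_zero]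
  rw [Finset.sum_congr rfl fun w _ => h2 w, Finset.sum_ite_eq' Finset.univ v, if_pos (mem_univ v),
    mul_comm]

/-- Fourier inversion in valuation form. -/
theorem val_card_mul_pair_le (P : ValuationSubring Qb) (a : AddMonoidAlgebra Qb V) (d : Qb)
    (h : ∀ l : Module.Dual (ZMod p) V,
      P.valuation (pair a (fun w => chi hζ (l w))) ≤ P.valuation d)
    (f : V → Qb) (hf : ∀ v, P.valuation (f v) ≤ 1) :
    P.valuation ((Fintype.card (Module.Dual (ZMod p) V) : Qb) * pair a f) ≤ P.valuation d := by
  rw [pair, Finset.mul_sum]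
  apply Valuation.map_sum_le
  intro v _
  rw [← mul_assoc, card_mul_coeff hζ a v, Finset.sum_mul]
  apply Valuation.map_sum_le
  intro l _
  rw [map_mul, map_mul, val_chi hζ P, mul_one]
  exact le_trans (mul_le_mul' (h l) (hf v)) (by rw [mul_one])

end Chi

end Fermat.Agent.Lib.FinFlat.Fontaine
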