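/-
Lib/FinFlat/Fontaine/Surj: points of a `P`-order modulo `c` (FLAT-T1), valuation form.

* `eq_of_forall_val` (INJ) : two points of `V` which are congruent modulo `c` on all equivariant
  elements of the order are equal;
* `exists_point_val` (SURJ) : an approximate (modulo `p c`) ring homomorphism `B → P` is
  congruent modulo `c` to the evaluation at a point of `V`.
-/
import Mathlib
import Fermat.Agent.Lib.FinFlat.POrder
import Fermat.Agent.Lib.FinFlat.Fontaine.Val
import Fermat.Agent.Lib.FinFlat.Fontaine.Lev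
import Fermat.Agent.Lib.FinFlat.Fontaine.Char

set_option autoImplicit false
set_option linter.unusedSectionVars false

namespace Fermat.Agent.Lib.FinFlat.Fontaine

open Finset

local notation "Qb" => AlgebraicClosure ℚ
local notation "GQ" => (AlgebraicClosure ℚ ≃ₐ[ℚ] AlgebraicClosure ℚ)

section Congr

variable {K : Type*} [Field K] (P : ValuationSubring K)

theorem val_sub_trans {x y z d : K} (h1 : P.valuation (x - y) ≤ P.valuation d)
    (h2 : P.valuation (y - z) ≤ P.valuation d) : P.valuation (x - z) ≤ P.valuation d := by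
  have e : x - z = (x - y) + (y - z) := by ring
  rw [e]
  exact Valuation.map_add_le _ h1 h2

theorem val_sub_symm {x y d : K} (h1 : P.valuation (x - y) ≤ P.valuation d) :
    P.valuation (y - x) ≤ P.valuation d := by
  rwa [Valuation.map_sub_swap]

theorem val_mul_sub_mul {x x' y y' d : K} (h1 : P.valuation (x - x') ≤ P.valuation d)
    (h2 : P.valuation (y - y') ≤ P.valuation d) (hx' : P.valuation x' ≤ 1)
    (hy : P.valuation y ≤ 1) : P.valuation (x * y - x' * y') ≤ P.valuation d := by
  have e : x * y - x' * y' = (x - x') * y + x' * (y - y') := by ring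
  rw [e]
  apply Valuation.map_add_le
  · rw [map_mul]
    exact (mul_le_mul' h1 hy).trans (mul_one _).le
  · rw [map_mul]
    exact (mul_le_mul' hx' h2).trans (one_mul _).le

end Congr

variable {P : ValuationSubring Qb} {Γ : Subgroup GQ} {V : Type} [AddCommGroup V] [Fintype V]
  {act : GQ → V → V} {B : Subalgebra P (V → Qb)}

/-- (SURJ), valuation form, with the `ZMod p`-structure as instances. -/
theorem exists_point_val_aux (hB : IsPOrder P Γ act B) {p : ℕ} [Fact p.Prime]
    [Module (ZMod p) V] [Fintype (Module.Dual (ZMod p) V)]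
    (hpP : P.valuation (p : Qb) < 1) (hpV : ∀ v : V, p • v = 0) {c m : Qb}
    (hc : c ^ (p - 1) = (p : Qb) * m) (hm0 : m ≠ 0) (hm : P.valuation m < 1)
    (y : (V → Qb) →ₗ[Qb] Qb) (hyP : ∀ f ∈ B, P.valuation (y f) ≤ 1)
    (hy1 : P.valuation (y 1 - 1) ≤ P.valuation ((p : Qb) * c))
    (hymul : ∀ f ∈ B, ∀ g ∈ B,
      P.valuation (y (f * g) - y f * y g) ≤ P.valuation ((p : Qb) * c)) :
    ∃ v₀ : V, ∀ f ∈ B, P.valuation (y f - f v₀) ≤ P.valuation c := by
  classical
  have hp : p.Prime := Fact.out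
  obtain ⟨ζ, hζ⟩ := HasEnoughRootsOfUnity.exists_primitiveRoot Qb p
  have hp0 : (p : Qb) ≠ 0 := Nat.cast_ne_zero.mpr hp.ne_zero
  have hc0 : c ≠ 0 := by
    rintro rfl
    rw [zero_pow (by have := hp.two_le; omega)] at hc
    exact mul_ne_zero hp0 hm0 hc.symm
  have hvc : P.valuation c < 1 := by
    by_contra h
    rw [not_lt] at h
    have h1 : 1 ≤ P.valuation c ^ (p - 1) := one_le_pow_of_one_le' h _
    rw [← map_pow, hc, map_mul] at h1
    have h2 : P.valuation (p : Qb) * P.valuation m < 1 :=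
      lt_of_le_of_lt (mul_le_of_le_one_right' hm.le) hpP
    exact absurd h1 (not_le.mpr h2)
  obtain ⟨τ, hτ0, hτ, hcτ, hmτ⟩ : ∃ τ : Qb, τ ≠ 0 ∧ P.valuation τ < 1 ∧
      P.valuation c ≤ P.valuation τ ∧ P.valuation m ≤ P.valuation τ := by
    rcases le_total (P.valuation c) (P.valuation m) with h | h
    · exact ⟨m, hm0, hm, h, le_rfl⟩
    · exact ⟨c, hc0, hvc, le_rfl, h⟩
  -- the element of the dual lattice representing `y`
  let z : AddMonoidAlgebra Qb V := ∑ v, AddMonoidAlgebra.single v (y (Pi.single v 1))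
  have hz : ∀ f, pair z f = y f := by
    intro f
    have hfun : f = ∑ v, f v • (Pi.single v (1 : Qb) : V → Qb) := by
      funext w
      rw [Finset.sum_apply, Finset.sum_eq_single w]
      · simp
      · intro v _ hv
        simp [Ne.symm hv]
      · intro h
        exact absurd (Finset.mem_univ w) h
    rw [pair_sum_left]
    conv_rhs => rw [hfun, map_sum]
    refine Finset.sum_congr rfl fun v _ => ?_
    rw [pair_single, map_smul, smul_eq_mul, mul_comm]
  have hz1 : Lev B 1 z := fun f hf => by rw [hz, map_one]; exact hyP f hf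
  have hzp : Lev B ((p : Qb) * c) (z ^ p - 1) :=
    lev_pow_sub_one hB hpV z y hz _ hyP hy1 hymul
  haveI : Nonempty (Module.Dual (ZMod p) V) := ⟨0⟩
  have hcard : Fintype.card (Module.Dual (ZMod p) V) ≠ 0 := Fintype.card_ne_zero
  obtain ⟨N, hN⟩ := exists_pow_val_le_natCast P hp hpP hτ0 hτ hcard
  obtain ⟨zN, hzN1, hzNc, hzNp⟩ :=
    exists_improved hB hp hp0 hpP.le hc hcτ hmτ hτ.le hz1 hzp N
  -- characters
  let ψ : Module.Dual (ZMod p) V → V → Qb := fun l w => chi hζ (l w)
  have hψ0 : ∀ l, ψ l 0 = 1 := fun l => by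
    simp only [ψ, map_zero, AddChar.map_zero_eq_one]
  have hψadd : ∀ l v w, ψ l (v + w) = ψ l v * ψ l w := fun l v w => by
    simp only [ψ, map_add, AddChar.map_add_eq_mul]
  have hψB : ∀ l, ψ l ∈ B := fun l => hB.addChar_mem (ψ l) (hψ0 l) (hψadd l)
  have hψmul : ∀ l l', ψ (l + l') = ψ l * ψ l' := by
    intro l l'
    funext w
    simp only [ψ, LinearMap.add_apply, AddChar.map_add_eq_mul, Pi.mul_apply]
  have hxp : ∀ l, P.valuation (pair zN (ψ l) ^ p - 1) ≤
      P.valuation ((p : Qb) * (c * τ ^ N)) := by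
    intro l
    have h1 : pair zN (ψ l) ^ p - 1 = pair (zN ^ p - 1) (ψ l) := by
      rw [← charHom_apply (ψ l) (hψ0 l) (hψadd l), ← charHom_apply (ψ l) (hψ0 l) (hψadd l),
        map_sub, map_pow, map_one]
    rw [h1]
    exact hzNp _ (hψB l)
  have hroot : ∀ l, ∃ a : ZMod p,
      P.valuation (pair zN (ψ l) - chi hζ a) ≤ P.valuation (c * τ ^ N) := by
    intro l
    obtain ⟨μ, hμ, hμv⟩ := exists_root_near P hp hζ _ _ (hxp l)
    obtain ⟨a, rfl⟩ := exists_chi_eq hζ hμ
    exact ⟨a, hμv⟩
  choose J hJ using hroot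
  have hcτN : P.valuation (c * τ ^ N) ≤ P.valuation c := by
    rw [map_mul, map_pow]
    exact (mul_le_mul' le_rfl (pow_le_one' hτ.le N)).trans (mul_one _).le
  have hJc : ∀ l, P.valuation (pair zN (ψ l) - chi hζ (J l)) ≤ P.valuation c :=
    fun l => (hJ l).trans hcτN
  have hlt : P.valuation c < P.valuation (1 - ζ) := val_lt_of_pow_eq P hp hζ hc hm hp0
  have hxy : ∀ f ∈ B, P.valuation (pair zN f - y f) ≤ P.valuation c := by
    intro f hf
    rw [← hz, ← pair_sub]
    exact hzNc f hf
  have hpc : P.valuation ((p : Qb) * c) ≤ P.valuation c := by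
    rw [map_mul]
    exact (mul_le_mul' hpP.le le_rfl).trans (one_mul _).le
  have a3 : ∀ l, P.valuation (y (ψ l) - chi hζ (J l)) ≤ P.valuation c := fun l =>
    val_sub_trans P (val_sub_symm P (hxy _ (hψB l))) (hJc l)
  -- additivity of `J`
  have hJadd : ∀ l l', J (l + l') = J l + J l' := by
    intro l l'
    by_contra hne
    have h1 : P.valuation (chi hζ (J (l + l')) - chi hζ (J l + J l')) = P.valuation (1 - ζ) :=
      val_sub_eq P hp hζ (chi_pow hζ _) (chi_pow hζ _) (fun h => hne (chi_injective hζ h))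
    have h2 : P.valuation (chi hζ (J (l + l')) - chi hζ (J l + J l')) ≤ P.valuation c := by
      rw [AddChar.map_add_eq_mul]
      have a1 : P.valuation (chi hζ (J (l + l')) - y (ψ l * ψ l')) ≤ P.valuation c := by
        rw [← hψmul]
        exact val_sub_symm P (a3 _)
      have a2 : P.valuation (y (ψ l * ψ l') - y (ψ l) * y (ψ l')) ≤ P.valuation c :=
        (hymul _ (hψB l) _ (hψB l')).trans hpc
      have a4 : P.valuation (y (ψ l) * y (ψ l') - chi hζ (J l) * chi hζ (J l')) ≤
          P.valuation c :=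
        val_mul_sub_mul P (a3 l) (a3 l') (val_chi hζ P _).le (hyP _ (hψB l'))
      exact val_sub_trans P (val_sub_trans P a1 a2) a4
    rw [h1] at h2
    exact absurd h2 (not_le.mpr hlt)
  -- the point
  let Jl : Module.Dual (ZMod p) (Module.Dual (ZMod p) V) :=
    AddMonoidHom.toZModLinearMap p (AddMonoidHom.mk' J hJadd)
  let v₀ : V := (Module.evalEquiv (ZMod p) V).symm Jl
  have hv₀ : ∀ l, J l = l v₀ := by
    intro l
    have h := congrArg (fun F => F l) ((Module.evalEquiv (ZMod p) V).apply_symm_apply Jl)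
    simp only [Module.evalEquiv_apply, Module.Dual.eval_apply] at h
    exact h.symm
  refine ⟨v₀, fun f hf => ?_⟩
  have hF : ∀ l : Module.Dual (ZMod p) V,
      P.valuation (pair (zN - AddMonoidAlgebra.single v₀ 1) (fun w => chi hζ (l w))) ≤
        P.valuation (c * τ ^ N) := by
    intro l
    rw [pair_sub, pair_single, one_mul, ← hv₀]
    exact hJ l
  have h3 := val_card_mul_pair_le hζ P _ _ hF f
    (fun v => (P.valuation_le_one_iff _).mpr (hB.integral f hf v))
  have h4 : P.valuation (pair (zN - AddMonoidAlgebra.single v₀ 1) f) ≤ P.valuation c := by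
    have hn0 : 0 < P.valuation ((Fintype.card (Module.Dual (ZMod p) V) : ℕ) : Qb) :=
      zero_lt_iff.mpr ((Valuation.ne_zero_iff _).mpr (Nat.cast_ne_zero.mpr hcard))
    rw [map_mul, map_mul P.valuation c] at h3
    have h5 : P.valuation ((Fintype.card (Module.Dual (ZMod p) V) : ℕ) : Qb) *
        P.valuation (pair (zN - AddMonoidAlgebra.single v₀ 1) f) ≤
        P.valuation ((Fintype.card (Module.Dual (ZMod p) V) : ℕ) : Qb) * P.valuation c :=
      h3.trans ((mul_le_mul' le_rfl hN).trans (mul_comm _ _).le)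
    exact le_of_mul_le_mul_left h5 hn0
  rw [pair_sub, pair_single, one_mul] at h4
  exact val_sub_trans P (val_sub_symm P (hxy f hf)) h4

/-- **(SURJ), valuation form.** -/
theorem exists_point_val (hB : IsPOrder P Γ act B) {p : ℕ} (hp : p.Prime)
    (hpP : P.valuation (p : Qb) < 1) (hpV : ∀ v : V, p • v = 0) {c m : Qb}
    (hc : c ^ (p - 1) = (p : Qb) * m) (hm0 : m ≠ 0) (hm : P.valuation m < 1)
    (y : (V → Qb) →ₗ[Qb] Qb) (hyP : ∀ f ∈ B, P.valuation (y f) ≤ 1)
    (hy1 : P.valuation (y 1 - 1) ≤ P.valuation ((p : Qb) * c))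
    (hymul : ∀ f ∈ B, ∀ g ∈ B,
      P.valuation (y (f * g) - y f * y g) ≤ P.valuation ((p : Qb) * c)) :
    ∃ v₀ : V, ∀ f ∈ B, P.valuation (y f - f v₀) ≤ P.valuation c := by
  classical
  haveI : Fact p.Prime := ⟨hp⟩
  letI : Module (ZMod p) V := AddCommGroup.zmodModule hpV
  haveI : Finite (Module.Dual (ZMod p) V) := by
    have hinj : Function.Injective (fun (l : V →ₗ[ZMod p] ZMod p) (v : V) => l v) :=
      fun a b h => LinearMap.ext fun v => congrFun h v
    exact Finite.of_injective _ hinj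
  letI : Fintype (Module.Dual (ZMod p) V) := Fintype.ofFinite _
  exact exists_point_val_aux hB hpP hpV hc hm0 hm y hyP hy1 hymul

/-- (INJ), valuation form, with the `ZMod p`-structure as instances. -/
theorem eq_of_forall_val_aux (hB : IsPOrder P Γ act B) {p : ℕ} [Fact p.Prime]
    [Module (ZMod p) V] {c m : Qb}
    (hc : c ^ (p - 1) = (p : Qb) * m) (hm : P.valuation m < 1) {v w : V}
    (h : ∀ f ∈ B, Equivar Γ act f → P.valuation (f v - f w) ≤ P.valuation c) : v = w := by
  classical
  have hp : p.Prime := Fact.out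
  obtain ⟨ζ, hζ⟩ := HasEnoughRootsOfUnity.exists_primitiveRoot Qb p
  have hp0 : (p : Qb) ≠ 0 := Nat.cast_ne_zero.mpr hp.ne_zero
  have hlt : P.valuation c < P.valuation (1 - ζ) := val_lt_of_pow_eq P hp hζ hc hm hp0
  by_contra hne
  obtain ⟨l, hl⟩ : ∃ l : Module.Dual (ZMod p) V, l (v - w) ≠ 0 := by
    by_contra hcon
    push Not at hcon
    exact hne (sub_eq_zero.mp ((Module.forall_dual_apply_eq_zero_iff (ZMod p) (v - w)).mp hcon))
  have hψB : (fun x => chi hζ (l x)) ∈ B :=
    hB.addChar_mem (fun x => chi hζ (l x)) (by simp only [map_zero, AddChar.map_zero_eq_one])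
      (fun x x' => by simp only [map_add, AddChar.map_add_eq_mul])
  obtain ⟨n, a, g, hg, hge, hsum⟩ := hB.exists_eq_sum hψB
  have h1 : chi hζ (l v) - chi hζ (l w) = ∑ i, (a i : Qb) * (g i v - g i w) := by
    have hv := congrFun hsum v
    have hw := congrFun hsum w
    simp only [Finset.sum_apply, Pi.smul_apply, smul_eq_mul] at hv hw
    rw [hv, hw, ← Finset.sum_sub_distrib]
    exact Finset.sum_congr rfl fun i _ => by ring
  have h2 : P.valuation (chi hζ (l v) - chi hζ (l w)) ≤ P.valuation c := by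
    rw [h1]
    apply Valuation.map_sum_le
    intro i _
    rw [map_mul]
    exact (mul_le_mul' ((P.valuation_le_one_iff _).mpr (a i).2) (h _ (hg i) (hge i))).trans
      (one_mul _).le
  have h3 : P.valuation (chi hζ (l v) - chi hζ (l w)) = P.valuation (1 - ζ) := by
    refine val_sub_eq P hp hζ (chi_pow hζ _) (chi_pow hζ _) (fun heq => hl ?_)
    rw [map_sub, chi_injective hζ heq, sub_self]
  rw [h3] at h2
  exact absurd h2 (not_le.mpr hlt)

/-- **(INJ), valuation form.** -/
theorem eq_of_forall_val (hB : IsPOrder P Γ act B) {p : ℕ} (hp : p.Prime)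
    (hpV : ∀ v : V, p • v = 0) {c m : Qb}
    (hc : c ^ (p - 1) = (p : Qb) * m) (hm : P.valuation m < 1) {v w : V}
    (h : ∀ f ∈ B, Equivar Γ act f → P.valuation (f v - f w) ≤ P.valuation c) : v = w := by
  haveI : Fact p.Prime := ⟨hp⟩
  letI : Module (ZMod p) V := AddCommGroup.zmodModule hpV
  exact eq_of_forall_val_aux hB hc hm h

end Fermat.Agent.Lib.FinFlat.Fontaine
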