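/-
Lib/FinFlat/Fontaine/Frob: Fontaine's lifting of approximate homomorphisms to the points of a
`P`-order (FLAT-T1), valuation form.

* `ApproxHom P Γ S η D` : `η` is a ring homomorphism `S → P` modulo `D`, congruent to the identity
  modulo `D` on the `Γ`-fixed elements of `P`;
* `fontaine_val` : such an `η` (for `D = p c`) induces an additive map `φ : V → V` with
  `f (φ v) ≡ η (f v)` modulo `c` for the equivariant elements of the order.
-/
import Mathlib
import Fermat.Agent.Lib.FinFlat.POrder
import Fermat.Agent.Lib.FinFlat.Fontaine.Val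
import Fermat.Agent.Lib.FinFlat.Fontaine.Lev
import Fermat.Agent.Lib.FinFlat.Fontaine.Char
import Fermat.Agent.Lib.FinFlat.Fontaine.Surj

set_option autoImplicit false
set_option linter.unusedSectionVars false

namespace Fermat.Agent.Lib.FinFlat.Fontaine

open Finset

local notation "Qb" => AlgebraicClosure ℚ
local notation "GQ" => (AlgebraicClosure ℚ ≃ₐ[ℚ] AlgebraicClosure ℚ)

/-- `η` is a ring homomorphism `S → P` modulo `D`, congruent to the identity modulo `D` on the
`Γ`-fixed elements of `P` (which are assumed to lie in `S`). -/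
structure ApproxHom (P : ValuationSubring Qb) (Γ : Subgroup GQ) (S : Subring Qb) (η : Qb → Qb)
    (D : Qb) : Prop where
  val_le : ∀ x ∈ S, P.valuation (η x) ≤ 1
  one : P.valuation (η 1 - 1) ≤ P.valuation D
  add : ∀ x ∈ S, ∀ y ∈ S, P.valuation (η (x + y) - (η x + η y)) ≤ P.valuation D
  mul : ∀ x ∈ S, ∀ y ∈ S, P.valuation (η (x * y) - η x * η y) ≤ P.valuation D
  fixed : ∀ a ∈ P, (∀ σ ∈ Γ, σ a = a) → a ∈ S ∧ P.valuation (η a - a) ≤ P.valuation D

namespace ApproxHom

variable {P : ValuationSubring Qb} {Γ : Subgroup GQ} {S : Subring Qb} {η : Qb → Qb} {D : Qb}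
  (h : ApproxHom P Γ S η D)

include h

theorem zero : P.valuation (η 0) ≤ P.valuation D := by
  have h1 := h.add 0 S.zero_mem 0 S.zero_mem
  rw [add_zero] at h1
  have e : η 0 = -(η 0 - (η 0 + η 0)) := by ring
  rw [e, Valuation.map_neg]
  exact h1

theorem sum {κ : Type} (s : Finset κ) (x : κ → Qb) (hx : ∀ i ∈ s, x i ∈ S) :
    P.valuation (η (∑ i ∈ s, x i) - ∑ i ∈ s, η (x i)) ≤ P.valuation D := by
  classical
  induction s using Finset.induction_on with
  | empty =>
    rw [Finset.sum_empty, Finset.sum_empty, sub_zero]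
    exact h.zero
  | insert i s hi ih =>
    rw [Finset.sum_insert hi, Finset.sum_insert hi]
    have h1 := h.add (x i) (hx i (mem_insert_self i s)) (∑ j ∈ s, x j)
      (S.sum_mem fun j hj => hx j (mem_insert_of_mem hj))
    have h2 := ih (fun j hj => hx j (mem_insert_of_mem hj))
    have e : η (x i + ∑ j ∈ s, x j) - (η (x i) + ∑ j ∈ s, η (x j)) =
        (η (x i + ∑ j ∈ s, x j) - (η (x i) + η (∑ j ∈ s, x j))) +
          (η (∑ j ∈ s, x j) - ∑ j ∈ s, η (x j)) := by ring
    rw [e]
    exact Valuation.map_add_le _ h1 h2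

theorem sub {x y : Qb} (hx : x ∈ S) (hy : y ∈ S) :
    P.valuation (η (x - y) - (η x - η y)) ≤ P.valuation D := by
  have h1 := h.add (x - y) (S.sub_mem hx hy) y hy
  rw [sub_add_cancel] at h1
  have e : η (x - y) - (η x - η y) = -(η x - (η (x - y) + η y)) := by ring
  rw [e, Valuation.map_neg]
  exact h1

theorem fixed_mul {a x : Qb} (ha : a ∈ P) (hfix : ∀ σ ∈ Γ, σ a = a) (hx : x ∈ S) :
    P.valuation (η (a * x) - a * η x) ≤ P.valuation D := by
  obtain ⟨haS, hηa⟩ := h.fixed a ha hfix
  have e : η (a * x) - a * η x = (η (a * x) - η a * η x) + (η a - a) * η x := by ring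
  rw [e]
  apply Valuation.map_add_le _ (h.mul a haS x hx)
  rw [map_mul]
  exact (mul_le_mul' hηa (h.val_le x hx)).trans (mul_one _).le

theorem fixed_mul_mul {a x y : Qb} (ha : a ∈ P) (hfix : ∀ σ ∈ Γ, σ a = a) (hx : x ∈ S)
    (hy : y ∈ S) : P.valuation (η (a * x * y) - a * η x * η y) ≤ P.valuation D := by
  obtain ⟨haS, -⟩ := h.fixed a ha hfix
  have e : η (a * x * y) - a * η x * η y =
      (η (a * x * y) - η (a * x) * η y) + (η (a * x) - a * η x) * η y := by ring
  rw [e]
  apply Valuation.map_add_le _ (h.mul (a * x) (S.mul_mem haS hx) y hy)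
  rw [map_mul]
  exact (mul_le_mul' (h.fixed_mul ha hfix hx) (h.val_le y hy)).trans (mul_one _).le

end ApproxHom

section Galois

/-- Every element of `Qb` is a periodic point of every automorphism. -/
theorem exists_iterate_eq (σ : GQ) (x : Qb) : ∃ n : ℕ, 0 < n ∧ (⇑σ)^[n] x = x := by
  classical
  have hQ : Algebra.IsAlgebraic ℚ Qb := AlgebraicClosure.isAlgebraic ℚ
  have hint : IsIntegral ℚ x := (Algebra.IsAlgebraic.isAlgebraic x).isIntegral
  have hq0 : minpoly ℚ x ≠ 0 := minpoly.ne_zero hint
  have hroot : ∀ k : ℕ, (⇑σ)^[k] x ∈ (minpoly ℚ x).rootSet Qb := by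
    intro k
    rw [Polynomial.mem_rootSet]
    refine ⟨hq0, ?_⟩
    induction k with
    | zero => exact minpoly.aeval ℚ x
    | succ k ih =>
      rw [Function.iterate_succ_apply']
      have := Polynomial.aeval_algHom_apply (σ : Qb →ₐ[ℚ] Qb) ((⇑σ)^[k] x) (minpoly ℚ x)
      rw [ih, map_zero] at this
      exact this
  haveI : Finite ((minpoly ℚ x).rootSet Qb) := Polynomial.rootSet_finite _ _
  obtain ⟨i, j, hij, heq⟩ := Finite.exists_ne_map_eq_of_infinite
    (fun k : ℕ => (⟨(⇑σ)^[k] x, hroot k⟩ : (minpoly ℚ x).rootSet Qb))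
  have heq' : (⇑σ)^[i] x = (⇑σ)^[j] x := congrArg Subtype.val heq
  have key : ∀ i j : ℕ, i < j → (⇑σ)^[i] x = (⇑σ)^[j] x → ∃ n : ℕ, 0 < n ∧ (⇑σ)^[n] x = x := by
    intro i j hlt he
    refine ⟨j - i, by omega, ?_⟩
    have hj : j = i + (j - i) := by omega
    rw [hj, Function.iterate_add_apply] at he
    exact ((σ.injective.iterate i) he).symm
  rcases lt_or_gt_of_ne hij with hlt | hlt
  · exact key i j hlt heq'
  · exact key j i hlt heq'.symm

variable (P : ValuationSubring Qb) (σ : GQ) (hσ : ∀ x ∈ P, σ x ∈ P)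

include hσ

theorem val_map_mono {a b : Qb} (hab : P.valuation a ≤ P.valuation b) :
    P.valuation (σ a) ≤ P.valuation (σ b) := by
  by_cases hb : b = 0
  · subst hb
    rw [map_zero, le_zero_iff, Valuation.zero_iff] at hab
    subst hab
    rw [map_zero]
  · have hbpos : 0 < P.valuation b := zero_lt_iff.mpr ((Valuation.ne_zero_iff _).mpr hb)
    have hσb : σ b ≠ 0 := (map_ne_zero σ).mpr hb
    have hσbpos : 0 < P.valuation (σ b) := zero_lt_iff.mpr ((Valuation.ne_zero_iff _).mpr hσb)
    have h1 : a / b ∈ P := by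
      rw [← P.valuation_le_one_iff, map_div₀]
      exact (div_le_one₀ hbpos).mpr hab
    have h2 := hσ _ h1
    rw [map_div₀, ← P.valuation_le_one_iff, map_div₀] at h2
    exact (div_le_one₀ hσbpos).mp h2

/-- An automorphism preserving `P` does not increase the valuation. -/
theorem val_map_le (x : Qb) : P.valuation (σ x) ≤ P.valuation x := by
  by_contra hcon
  rw [not_le] at hcon
  obtain ⟨n, hn, hnx⟩ := exists_iterate_eq σ x
  have hstep : ∀ k : ℕ, P.valuation ((⇑σ)^[k] x) ≤ P.valuation ((⇑σ)^[k + 1] x) := by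
    intro k
    induction k with
    | zero => exact hcon.le
    | succ k ih =>
      rw [Function.iterate_succ_apply' (⇑σ) (k + 1)]
      rw [Function.iterate_succ_apply' (⇑σ) k] at ih ⊢
      exact val_map_mono P σ hσ ih
  have hmono : Monotone fun k : ℕ => P.valuation ((⇑σ)^[k] x) := monotone_nat_of_le_succ hstep
  have h1 : P.valuation ((⇑σ)^[1] x) ≤ P.valuation ((⇑σ)^[n] x) := hmono hn
  rw [hnx] at h1
  exact absurd h1 (not_le.mpr hcon)

theorem val_map_le_of_le {t c : Qb} (htc : P.valuation t ≤ P.valuation c) :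
    P.valuation (σ t) ≤ P.valuation c :=
  (val_map_mono P σ hσ htc).trans (val_map_le P σ hσ c)

end Galois

section Basis

variable {P : ValuationSubring Qb} {Γ : Subgroup GQ} {V : Type} [AddCommGroup V]
  {act : GQ → V → V} {B : Subalgebra P (V → Qb)}
  {ι : Type} [Fintype ι] (b : Module.Basis ι Qb (V → Qb))

theorem basis_eval (f : V → Qb) (v : V) : f v = ∑ k, b.repr f k * b k v := by
  conv_lhs => rw [← b.sum_repr f]
  rw [Finset.sum_apply]
  rfl

omit [AddCommGroup V] in
theorem equivar_mul {f g : V → Qb} (hf : Equivar Γ act f) (hg : Equivar Γ act g) :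
    Equivar Γ act (f * g) := by
  intro σ hσ v
  rw [Pi.mul_apply, Pi.mul_apply, hf σ hσ, hg σ hσ, map_mul]

omit [AddCommGroup V] in
theorem equivar_one : Equivar Γ act (1 : V → Qb) := by
  intro σ _ v
  rw [Pi.one_apply, Pi.one_apply, map_one]

/-- The coefficients of an equivariant function in an equivariant basis are fixed. -/
theorem repr_fixed (hb : ∀ i, Equivar Γ act (b i)) {f : V → Qb} (hf : Equivar Γ act f)
    (σ : GQ) (hσ : σ ∈ Γ) (k : ι) : σ (b.repr f k) = b.repr f k := by
  have h1 : ∑ k, σ.symm (b.repr f k) • b k = f := by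
    funext v
    apply σ.injective
    rw [← hf σ hσ v, Finset.sum_apply, map_sum, basis_eval b f (act σ v)]
    refine Finset.sum_congr rfl fun k _ => ?_
    rw [Pi.smul_apply, smul_eq_mul, map_mul, AlgEquiv.apply_symm_apply, hb k σ hσ v]
  have h2 := congrArg (fun g => b.repr g k) h1
  simp only [Module.Basis.repr_sum_self] at h2
  rw [← h2, AlgEquiv.apply_symm_apply, h2]

/-- Linear independence of the products `b k ⊗ b l`. -/
theorem eq_zero_of_forall_sum_sum (d : ι → ι → Qb)
    (h : ∀ v w, ∑ k, ∑ l, d k l * b k v * b l w = 0) : ∀ k l, d k l = 0 := by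
  have hli := Fintype.linearIndependent_iff.mp b.linearIndependent
  have h1 : ∀ w k, ∑ l, d k l * b l w = 0 := by
    intro w
    apply hli (fun k => ∑ l, d k l * b l w)
    funext v
    rw [Finset.sum_apply, Pi.zero_apply, ← h v w]
    refine Finset.sum_congr rfl fun k _ => ?_
    rw [Pi.smul_apply, smul_eq_mul, Finset.sum_mul]
    exact Finset.sum_congr rfl fun l _ => by ring
  intro k
  apply hli (fun l => d k l)
  funext w
  rw [Finset.sum_apply, Pi.zero_apply, ← h1 w k]
  rfl

/-- The multiplicative defect of a linear functional, in a basis. -/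
theorem defect_eq (y : (V → Qb) →ₗ[Qb] Qb) (f g : V → Qb) :
    y (f * g) - y f * y g =
      ∑ i, ∑ j, b.repr f i * b.repr g j * (y (b i * b j) - y (b i) * y (b j)) := by
  have key : ∀ α β : ι → Qb,
      y ((∑ i, α i • b i) * (∑ j, β j • b j)) - y (∑ i, α i • b i) * y (∑ j, β j • b j) =
        ∑ i, ∑ j, α i * β j * (y (b i * b j) - y (b i) * y (b j)) := by
    intro α β
    rw [Finset.sum_mul_sum, map_sum, map_sum, map_sum, Finset.sum_mul_sum,
      ← Finset.sum_sub_distrib]
    refine Finset.sum_congr rfl fun i _ => ?_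
    rw [map_sum, ← Finset.sum_sub_distrib]
    refine Finset.sum_congr rfl fun j _ => ?_
    rw [smul_mul_smul_comm, map_smul, map_smul, map_smul, smul_eq_mul, smul_eq_mul, smul_eq_mul]
    ring
  have := key (fun i => b.repr f i) (fun j => b.repr g j)
  rwa [b.sum_repr f, b.sum_repr g] at this

/-- The comultiplication constants of an equivariant element are fixed elements of `P`. -/
theorem exists_comul_coeff (hB : IsPOrder P Γ act B)
    (hmem : ∀ f, f ∈ B ↔ ∀ i, b.repr f i ∈ P) (hb : ∀ i, Equivar Γ act (b i))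
    (hact : ∀ σ ∈ Γ, ∀ v w, act σ (v + w) = act σ v + act σ w)
    {f : V → Qb} (hfB : f ∈ B) (hf : Equivar Γ act f) :
    ∃ n : ι → ι → Qb, (∀ k l, n k l ∈ P) ∧ (∀ k l, ∀ σ ∈ Γ, σ (n k l) = n k l) ∧
      ∀ v w, f (v + w) = ∑ k, ∑ l, n k l * b k v * b l w := by
  obtain ⟨N, g, h, hg, hh, hfgh⟩ := hB.comul f hfB
  let n : ι → ι → Qb := fun k l => ∑ i, b.repr (g i) k * b.repr (h i) l
  have hn : ∀ v w, f (v + w) = ∑ k, ∑ l, n k l * b k v * b l w := by
    intro v w
    rw [hfgh]
    have e : ∀ i, g i v * h i w =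
        ∑ k, ∑ l, b.repr (g i) k * b.repr (h i) l * b k v * b l w := by
      intro i
      rw [basis_eval b (g i) v, basis_eval b (h i) w, Finset.sum_mul_sum]
      refine Finset.sum_congr rfl fun k _ => Finset.sum_congr rfl fun l _ => by ring
    rw [Finset.sum_congr rfl fun i _ => e i, Finset.sum_comm]
    refine Finset.sum_congr rfl fun k _ => ?_
    rw [Finset.sum_comm]
    refine Finset.sum_congr rfl fun l _ => ?_
    simp only [n]
    rw [Finset.sum_mul, Finset.sum_mul]
  refine ⟨n, ?_, ?_, hn⟩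
  · intro k l
    exact P.toSubring.sum_mem fun i _ => P.mul_mem _ _ ((hmem _).mp (hg i) k) ((hmem _).mp (hh i) l)
  · intro k l σ hσ
    have h0 := eq_zero_of_forall_sum_sum b (fun k l => σ.symm (n k l) - n k l) (by
      intro v w
      have h1 : ∑ k, ∑ l, σ.symm (n k l) * b k v * b l w = f (v + w) := by
        apply σ.injective
        rw [← hf σ hσ (v + w), hact σ hσ, hn (act σ v) (act σ w), map_sum]
        refine Finset.sum_congr rfl fun k _ => ?_
        rw [map_sum]
        refine Finset.sum_congr rfl fun l _ => ?_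
        rw [map_mul, map_mul, AlgEquiv.apply_symm_apply, hb k σ hσ v, hb l σ hσ w]
      have h2 : ∑ k, ∑ l, (σ.symm (n k l) - n k l) * b k v * b l w =
          ∑ k, ∑ l, σ.symm (n k l) * b k v * b l w - ∑ k, ∑ l, n k l * b k v * b l w := by
        rw [← Finset.sum_sub_distrib]
        refine Finset.sum_congr rfl fun k _ => ?_
        rw [← Finset.sum_sub_distrib]
        exact Finset.sum_congr rfl fun l _ => by ring
      rw [h2, h1, ← hn v w, sub_self]) k l
    have h3 : σ.symm (n k l) = n k l := sub_eq_zero.mp h0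
    rw [← h3, AlgEquiv.apply_symm_apply, h3]

end Basis

section Main

variable {P : ValuationSubring Qb} {Γ : Subgroup GQ} {V : Type} [AddCommGroup V] [Fintype V]
  {act : GQ → V → V} {B : Subalgebra P (V → Qb)}

/-- **Fontaine's lifting, valuation form.** -/
theorem fontaine_val (hB : IsPOrder P Γ act B) {p : ℕ} (hp : p.Prime)
    (hpP : P.valuation (p : Qb) < 1) (hpV : ∀ v : V, p • v = 0) {c m : Qb}
    (hc : c ^ (p - 1) = (p : Qb) * m) (hm0 : m ≠ 0) (hm : P.valuation m < 1)
    (hact : ∀ σ ∈ Γ, ∀ v w, act σ (v + w) = act σ v + act σ w)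
    (S : Subring Qb) (η : Qb → Qb) (hS : ∀ f ∈ B, Equivar Γ act f → ∀ v, f v ∈ S)
    (hη : ApproxHom P Γ S η ((p : Qb) * c)) :
    ∃ φ : V → V, (∀ v w, φ (v + w) = φ v + φ w) ∧
      (∀ v, ∀ f ∈ B, Equivar Γ act f → P.valuation (f (φ v) - η (f v)) ≤ P.valuation c) ∧
      (∀ σ ∈ Γ, (∀ x ∈ P, σ x ∈ P) →
        (∀ x ∈ S, P.valuation (σ (η x) - η x) ≤ P.valuation c) → ∀ v, act σ (φ v) = φ v) ∧
      ((∀ x ∈ S, P.valuation (η x) ≤ P.valuation c → P.valuation x ≤ P.valuation c) →
        Function.Injective φ) := by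
  classical
  obtain ⟨ι, hι, b, hb, hmem⟩ := hB.exists_basis
  have hbB : ∀ i, b i ∈ B := mem_of_basis b hmem
  have hpc : P.valuation ((p : Qb) * c) ≤ P.valuation c := by
    rw [map_mul]
    exact (mul_le_mul' hpP.le le_rfl).trans (one_mul _).le
  have hbS : ∀ k v, b k v ∈ S := fun k v => hS _ (hbB k) (hb k) v
  have hrP : ∀ f ∈ B, ∀ k, P.valuation (b.repr f k) ≤ 1 := fun f hf k =>
    (P.valuation_le_one_iff _).mpr ((hmem f).mp hf k)
  -- the approximate homomorphisms
  let y : V → (V → Qb) →ₗ[Qb] Qb := fun v => b.constr Qb (fun i => η (b i v))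
  have hy : ∀ v f, y v f = ∑ k, b.repr f k * η (b k v) := by
    intro v f
    simp only [y, Module.Basis.constr_apply_fintype, Module.Basis.equivFun_apply, smul_eq_mul]
  have hyb : ∀ v i, y v (b i) = η (b i v) := fun v i => Module.Basis.constr_basis _ _ _ _
  have hE : ∀ v, ∀ f ∈ B, Equivar Γ act f →
      P.valuation (y v f - η (f v)) ≤ P.valuation ((p : Qb) * c) := by
    intro v f hfB hf
    have hfix : ∀ k, ∀ σ ∈ Γ, σ (b.repr f k) = b.repr f k :=
      fun k σ hσ => repr_fixed b hb hf σ hσ k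
    rw [hy, basis_eval b f v]
    have h1 := hη.sum Finset.univ (fun k => b.repr f k * b k v)
      (fun k _ => S.mul_mem (hη.fixed _ ((hmem f).mp hfB k) (hfix k)).1 (hbS k v))
    have h2 : P.valuation (∑ k, b.repr f k * η (b k v) - ∑ k, η (b.repr f k * b k v)) ≤
        P.valuation ((p : Qb) * c) := by
      rw [← Finset.sum_sub_distrib]
      apply Valuation.map_sum_le
      intro k _
      exact val_sub_symm P (hη.fixed_mul ((hmem f).mp hfB k) (hfix k) (hbS k v))
    exact val_sub_trans P h2 (val_sub_symm P h1)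
  have hyP : ∀ v, ∀ f ∈ B, P.valuation (y v f) ≤ 1 := by
    intro v f hf
    rw [hy]
    apply Valuation.map_sum_le
    intro k _
    rw [map_mul]
    exact (mul_le_mul' (hrP f hf k) (hη.val_le _ (hbS k v))).trans (one_mul _).le
  have hy1 : ∀ v, P.valuation (y v 1 - 1) ≤ P.valuation ((p : Qb) * c) := fun v =>
    val_sub_trans P (hE v 1 B.one_mem equivar_one) hη.one
  have hymul : ∀ v, ∀ f ∈ B, ∀ g ∈ B,
      P.valuation (y v (f * g) - y v f * y v g) ≤ P.valuation ((p : Qb) * c) := by
    intro v f hf g hg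
    rw [defect_eq b (y v) f g]
    apply Valuation.map_sum_le
    intro i _
    apply Valuation.map_sum_le
    intro j _
    rw [map_mul, map_mul]
    have h1 : P.valuation (y v (b i * b j) - y v (b i) * y v (b j)) ≤
        P.valuation ((p : Qb) * c) := by
      rw [hyb, hyb]
      have h2 := hE v (b i * b j) (B.mul_mem (hbB i) (hbB j)) (equivar_mul (hb i) (hb j))
      exact val_sub_trans P h2 (hη.mul _ (hbS i v) _ (hbS j v))
    exact (mul_le_mul' (mul_le_mul' (hrP f hf i) (hrP g hg j)) h1).trans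
      (by rw [one_mul, one_mul])
  have hpt := fun v => exists_point_val hB hp hpP hpV hc hm0 hm (y v) (hyP v) (hy1 v) (hymul v)
  choose φ hφ using hpt
  have h2 : ∀ v, ∀ f ∈ B, Equivar Γ act f →
      P.valuation (f (φ v) - η (f v)) ≤ P.valuation c := by
    intro v f hfB hf
    exact val_sub_trans P (val_sub_symm P (hφ v f hfB)) ((hE v f hfB hf).trans hpc)
  refine ⟨φ, ?_, h2, ?_, ?_⟩
  · -- additivity
    intro v w
    apply eq_of_forall_val hB hp hpV hc hm
    intro f hfB hf
    obtain ⟨n, hnP, hnfix, hn⟩ := exists_comul_coeff b hB hmem hb hact hfB hf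
    have hnS : ∀ k l, n k l ∈ S := fun k l => (hη.fixed _ (hnP k l) (hnfix k l)).1
    have e1 : P.valuation (η (f (v + w)) - ∑ k, ∑ l, n k l * η (b k v) * η (b l w)) ≤
        P.valuation ((p : Qb) * c) := by
      rw [hn v w]
      have s1 := hη.sum Finset.univ (fun k => ∑ l, n k l * b k v * b l w)
        (fun k _ => S.sum_mem fun l _ => S.mul_mem (S.mul_mem (hnS k l) (hbS k v)) (hbS l w))
      refine val_sub_trans P s1 ?_
      rw [← Finset.sum_sub_distrib]
      apply Valuation.map_sum_le
      intro k _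
      have s2 := hη.sum Finset.univ (fun l => n k l * b k v * b l w)
        (fun l _ => S.mul_mem (S.mul_mem (hnS k l) (hbS k v)) (hbS l w))
      refine val_sub_trans P s2 ?_
      rw [← Finset.sum_sub_distrib]
      apply Valuation.map_sum_le
      intro l _
      exact hη.fixed_mul_mul (hnP k l) (hnfix k l) (hbS k v) (hbS l w)
    have e2 : P.valuation (f (φ v + φ w) - ∑ k, ∑ l, n k l * η (b k v) * η (b l w)) ≤
        P.valuation c := by
      rw [hn (φ v) (φ w), ← Finset.sum_sub_distrib]
      apply Valuation.map_sum_le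
      intro k _
      rw [← Finset.sum_sub_distrib]
      apply Valuation.map_sum_le
      intro l _
      have e : n k l * b k (φ v) * b l (φ w) - n k l * η (b k v) * η (b l w) =
          n k l * (b k (φ v) * b l (φ w) - η (b k v) * η (b l w)) := by ring
      rw [e, map_mul]
      exact (mul_le_mul' ((P.valuation_le_one_iff _).mpr (hnP k l))
        (val_mul_sub_mul P (h2 v _ (hbB k) (hb k)) (h2 w _ (hbB l) (hb l))
          (hη.val_le _ (hbS k v))
          ((P.valuation_le_one_iff _).mpr (hB.integral _ (hbB l) _)))).trans (one_mul _).le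
    exact val_sub_trans P (val_sub_trans P (h2 (v + w) f hfB hf) (e1.trans hpc))
      (val_sub_symm P e2)
  · -- invariance
    intro σ hσ hσP hση v
    apply eq_of_forall_val hB hp hpV hc hm
    intro f hfB hf
    rw [hf σ hσ]
    have hx := h2 v f hfB hf
    have h3 : P.valuation (σ (f (φ v)) - σ (η (f v))) ≤ P.valuation c := by
      rw [← map_sub]
      exact val_map_le_of_le P σ hσP hx
    exact val_sub_trans P (val_sub_trans P h3 (hση _ (hS f hfB hf v))) (val_sub_symm P hx)
  · -- injectivity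
    intro hinj v w hvw
    apply eq_of_forall_val hB hp hpV hc hm
    intro f hfB hf
    apply hinj _ (S.sub_mem (hS f hfB hf v) (hS f hfB hf w))
    have s := (hη.sub (hS f hfB hf v) (hS f hfB hf w)).trans hpc
    have t : P.valuation (η (f v) - η (f w)) ≤ P.valuation c := by
      have a := h2 v f hfB hf
      have a' := h2 w f hfB hf
      rw [hvw] at a
      exact val_sub_trans P (val_sub_symm P a) a'
    have e : η (f v - f w) = (η (f v - f w) - (η (f v) - η (f w))) + (η (f v) - η (f w)) := by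
      ring
    rw [e]
    exact Valuation.map_add_le _ s t

end Main

end Fermat.Agent.Lib.FinFlat.Fontaine
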